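import Mathlib.NumberTheory.Real.GoldenRatio
import Mathlib.NumberTheory.Real.Irrational
import Mathlib.Data.Rat.Floor
import Mathlib.Algebra.Order.Archimedean.Real.Basic
import Mathlib.Tactic

/-!
# Hurwitz's theorem on rational approximation

An irrational number lies between neighbours `a / b`, `c / d` with `b c - a d = 1` and `b + d` as
large as desired; one of these two and their mediant is within `1 / (√5 q ²)`. The golden ratio
shows that `√5` is best possible.
-/

set_option autoImplicit false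

noncomputable section

open Real

namespace FA.MarkovMinima

theorem irrational_sqrt_five : Irrational (√5) := by
  exact_mod_cast Nat.Prime.irrational_sqrt (p := 5) (by norm_num)

/-- Neighbours around an irrational number. -/
theorem exists_neighbours {ξ : ℝ} (hξ : Irrational ξ) (k : ℕ) :
    ∃ a b c d : ℤ, 0 < b ∧ 0 < d ∧ b * c - a * d = 1 ∧ (a : ℝ) < ξ * b ∧ ξ * d < c ∧
      (k : ℤ) < b + d := by
  induction k with
  | zero =>
    refine ⟨⌊ξ⌋, 1, ⌊ξ⌋ + 1, 1, one_pos, one_pos, by ring, ?_, ?_, by norm_num⟩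
    · rw [Int.cast_one, mul_one]
      exact (Int.floor_le ξ).lt_of_ne fun h => hξ.ne_int ⌊ξ⌋ h.symm
    · push_cast
      rw [mul_one]
      exact Int.lt_floor_add_one ξ
  | succ k ih =>
    obtain ⟨a, b, c, d, hb, hd, he, h1, h2, hk⟩ := ih
    rcases lt_trichotomy (ξ * ((b + d : ℤ) : ℝ)) ((a + c : ℤ) : ℝ) with h | h | h
    · exact ⟨a, b, a + c, b + d, hb, add_pos hb hd, by linear_combination he, h1, h,
        by push_cast; linarith⟩
    · exfalso
      refine hξ.ne_rational (a + c) (b + d) ?_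
      rw [eq_div_iff (by exact_mod_cast (add_pos hb hd).ne')]
      exact h
    · exact ⟨a + c, b + d, c, d, add_pos hb hd, hd, by linear_combination he, h, h2,
        by push_cast; linarith⟩

/-- The two quadratic conditions on a pair of denominators and their sum fail. -/
theorem sqrt_five_pair {b d : ℤ} (hb : 0 < b) (hd : 0 < d)
    (h1 : ((b : ℝ) ^ 2 + (d : ℝ) ^ 2) ≤ √5 * b * d)
    (h2 : ((b : ℝ) ^ 2 + ((b : ℝ) + d) ^ 2) ≤ √5 * b * (b + d)) : False := by
  have hb' : (0 : ℝ) < b := Int.cast_pos.2 hb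
  have hd' : (0 : ℝ) < d := Int.cast_pos.2 hd
  have hs : √5 ^ 2 = 5 := Real.sq_sqrt (by norm_num)
  have e1 : (2 * (d : ℝ) - √5 * b) ^ 2 ≤ (b : ℝ) ^ 2 := by
    linear_combination 4 * h1 + (b : ℝ) ^ 2 * hs
  have e2 : (2 * ((b : ℝ) + d) - √5 * b) ^ 2 ≤ (b : ℝ) ^ 2 := by
    linear_combination 4 * h2 + (b : ℝ) ^ 2 * hs
  have f1 := (abs_le_of_sq_le_sq' e1 hb'.le).1
  have f2 := (abs_le_of_sq_le_sq' e2 hb'.le).2
  refine irrational_sqrt_five.ne_rational (2 * d + b) b ?_
  rw [eq_div_iff hb'.ne']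
  push_cast
  linarith

theorem pair_le {a b c d ξ : ℝ} (he : b * c - a * d = 1)
    (h1 : 1 ≤ √5 * b * (ξ * b - a)) (h2 : 1 ≤ √5 * d * (c - ξ * d)) :
    b ^ 2 + d ^ 2 ≤ √5 * b * d := by
  have := add_le_add (mul_le_mul_of_nonneg_left h1 (sq_nonneg d))
    (mul_le_mul_of_nonneg_left h2 (sq_nonneg b))
  linear_combination this + √5 * b * d * he

/-- **Hurwitz's theorem.** -/
theorem exists_near_rat {ξ : ℝ} (hξ : Irrational ξ) {ε : ℝ} (hε : 0 < ε) :
    ∃ r : ℚ, |ξ - r| < ε ∧ |ξ - r| < 1 / (√5 * (r.den : ℝ) ^ 2) := by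
  obtain ⟨k, hk⟩ := exists_nat_gt (1 / ε)
  obtain ⟨a, b, c, d, hb, hd, he, h1, h2, hbd⟩ := exists_neighbours hξ k
  have hb' : (0 : ℝ) < b := Int.cast_pos.2 hb
  have hd' : (0 : ℝ) < d := Int.cast_pos.2 hd
  have he' : (b : ℝ) * c - a * d = 1 := by exact_mod_cast he
  have hbd' : 1 / ε < (b : ℝ) * d := by
    refine hk.trans_le ?_
    exact_mod_cast (show (k : ℤ) ≤ b * d by nlinarith)
  rw [div_lt_iff₀ hε] at hbd'
  -- a point between the neighbours which beats the bound
  have key : ∀ p q : ℤ, 0 < q → |ξ * q - p| * (√5 * q) < 1 →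
      (a : ℝ) * q ≤ p * b → (p : ℝ) * d ≤ c * q →
      ∃ r : ℚ, |ξ - r| < ε ∧ |ξ - r| < 1 / (√5 * (r.den : ℝ) ^ 2) := by
    intro p q hq hlt hap hpc
    have hq' : (0 : ℝ) < q := Int.cast_pos.2 hq
    refine ⟨(p : ℚ) / q, ?_, ?_⟩
    · rw [Rat.cast_div, Rat.cast_intCast, Rat.cast_intCast, abs_lt]
      constructor
      · refine lt_of_mul_lt_mul_right ?_ (mul_pos (mul_pos hb' hd') hq').le
        have e : (ξ - p / q) * (b * d * q) = ξ * b * d * q - p * b * d := by field_simp
        rw [e]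
        nlinarith [mul_nonneg hb'.le (sub_nonneg.2 hpc),
          mul_lt_mul_of_pos_left h1 (mul_pos hd' hq'), mul_lt_mul_of_pos_left hbd' hq']
      · refine lt_of_mul_lt_mul_right ?_ (mul_pos (mul_pos hb' hd') hq').le
        have e : (ξ - p / q) * (b * d * q) = ξ * b * d * q - p * b * d := by field_simp
        rw [e]
        nlinarith [mul_nonneg hd'.le (sub_nonneg.2 hap),
          mul_lt_mul_of_pos_left h2 (mul_pos hb' hq'), mul_lt_mul_of_pos_left hbd' hq']
    · have hden : (((p : ℚ) / q).den : ℝ) ≤ q := by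
        have h := Rat.den_dvd p q
        rw [Rat.divInt_eq_div] at h
        exact_mod_cast Int.le_of_dvd hq h
      have hden0 : (0 : ℝ) < (((p : ℚ) / q).den : ℝ) := Nat.cast_pos.2 (Rat.den_pos _)
      refine lt_of_lt_of_le ?_ (div_le_div_of_nonneg_left one_pos.le (by positivity)
        (mul_le_mul_of_nonneg_left (pow_le_pow_left₀ hden0.le hden 2) (Real.sqrt_nonneg 5)))
      rw [Rat.cast_div, Rat.cast_intCast, Rat.cast_intCast, lt_div_iff₀ (by positivity),
        show ξ - (p : ℝ) / q = (ξ * q - p) / q by field_simp, abs_div, abs_of_pos hq']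
      calc |ξ * q - p| / q * (√5 * (q : ℝ) ^ 2) = |ξ * q - p| * (√5 * q) := by field_simp
        _ < 1 := hlt
  by_cases hA : |ξ * b - a| * (√5 * b) < 1
  · exact key a b hb hA le_rfl (by linarith)
  by_cases hC : |ξ * d - c| * (√5 * d) < 1
  · exact key c d hd hC (by linarith) le_rfl
  by_cases hM : |ξ * ((b + d : ℤ) : ℝ) - ((a + c : ℤ) : ℝ)| * (√5 * ((b + d : ℤ) : ℝ)) < 1
  · exact key (a + c) (b + d) (add_pos hb hd) hM (by push_cast; linarith) (by push_cast; linarith)
  exfalso
  rw [abs_of_pos (sub_pos.2 h1)] at hA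
  rw [abs_of_neg (sub_neg.2 h2)] at hC
  push_cast at hM
  have hA' : 1 ≤ √5 * b * (ξ * b - a) := by linarith
  have hC' : 1 ≤ √5 * d * (c - ξ * d) := by linarith
  have p1 := pair_le he' hA' hC'
  rcases le_total (ξ * ((b : ℝ) + d)) ((a : ℝ) + c) with h | h
  · rw [abs_of_nonpos (sub_nonpos.2 h)] at hM
    have p2 := pair_le (c := (a : ℝ) + c) (d := (b : ℝ) + d)
      (by linear_combination he') hA' (by linarith)
    exact sqrt_five_pair hb hd p1 p2
  · rw [abs_of_nonneg (sub_nonneg.2 h)] at hM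
    have p2 := pair_le (a := (a : ℝ) + c) (b := (b : ℝ) + d) (ξ := ξ)
      (by linear_combination he') (by linarith) hC'
    refine sqrt_five_pair hd hb ?_ ?_ <;> linarith

/-- Infinitely many rationals are so near. -/
theorem hurwitz_infinite {ξ : ℝ} (hξ : Irrational ξ) :
    {r : ℚ | |ξ - r| < 1 / (√5 * (r.den : ℝ) ^ 2)}.Infinite := fun hfin => by
  obtain ⟨ε, hε, hsep⟩ : ∃ ε > 0, ∀ r ∈ {r : ℚ | |ξ - r| < 1 / (√5 * (r.den : ℝ) ^ 2)},
      ε ≤ |ξ - r| := by
    rcases hfin.toFinset.eq_empty_or_nonempty with he | hne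
    · exact ⟨1, one_pos, fun r hr => absurd (hfin.mem_toFinset.2 hr) (he ▸ Finset.notMem_empty r)⟩
    obtain ⟨r₀, -, hmin⟩ := hfin.toFinset.exists_min_image (fun r : ℚ => |ξ - r|) hne
    exact ⟨|ξ - r₀|, abs_pos.2 (sub_ne_zero.2 (hξ.ne_rat r₀)),
      fun r hr => hmin r (hfin.mem_toFinset.2 hr)⟩
  obtain ⟨r, hr1, hr2⟩ := exists_near_rat hξ hε
  exact (hsep r hr2).not_gt hr1

/-- **`√5` is best possible**: for the golden ratio. -/
theorem goldenRatio_finite {c : ℝ} (hc : √5 < c) :
    {r : ℚ | |goldenRatio - r| < 1 / (c * (r.den : ℝ) ^ 2)}.Finite := by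
  have hs : 0 < √5 := Real.sqrt_pos.2 (by norm_num)
  have hc0 : 0 < c := hs.trans hc
  set B : ℝ := 1 / (c * (c - √5))
  obtain ⟨N, hN⟩ := exists_nat_ge (B + 1)
  have hbound : ∀ r : ℚ, |goldenRatio - r| < 1 / (c * (r.den : ℝ) ^ 2) →
      r.den ≤ N ∧ |r.num| ≤ (3 * N : ℤ) := by
    intro r hr
    have hq : (1 : ℝ) ≤ r.den := Nat.one_le_cast.2 r.den_pos
    have hq0 : (0 : ℝ) < r.den := one_pos.trans_le hq
    have hform : (1 : ℝ) ≤
        |((r.num : ℝ) - goldenRatio * r.den) * (r.num - goldenConj * r.den)| := by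
      have e : ((r.num : ℝ) - goldenRatio * r.den) * (r.num - goldenConj * r.den) =
          ((r.num ^ 2 - r.num * r.den - (r.den : ℤ) ^ 2 : ℤ) : ℝ) := by
        push_cast
        linear_combination (r.den : ℝ) ^ 2 * goldenRatio_mul_goldenConj -
          (r.num : ℝ) * r.den * goldenRatio_add_goldenConj
      have hne : ((r.num : ℝ) - goldenRatio * r.den) * (r.num - goldenConj * r.den) ≠ 0 :=
        mul_ne_zero (fun h => goldenRatio_irrational.ne_rational r.num r.den (by
          rw [eq_div_iff (by simp)]; push_cast; linarith))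
          (fun h => goldenConj_irrational.ne_rational r.num r.den (by
          rw [eq_div_iff (by simp)]; push_cast; linarith))
      rw [e] at hne ⊢
      exact_mod_cast Int.one_le_abs (by exact_mod_cast hne)
    rw [lt_div_iff₀ (by positivity)] at hr
    set u := |goldenRatio - r| with hu
    have e1 : |(r.num : ℝ) - goldenRatio * r.den| = u * r.den := by
      rw [hu, Rat.cast_def, abs_sub_comm goldenRatio, show (r.num : ℝ) / r.den - goldenRatio =
        ((r.num : ℝ) - goldenRatio * r.den) / r.den by field_simp, abs_div, abs_of_pos hq0,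
        div_mul_cancel₀ _ hq0.ne']
    have e2 : |(r.num : ℝ) - goldenConj * r.den| ≤ (√5 + u) * r.den := by
      rw [show (r.num : ℝ) - goldenConj * r.den = ((r.num : ℝ) - goldenRatio * r.den) +
        √5 * r.den by rw [← goldenRatio_sub_goldenConj]; ring]
      refine (abs_add_le _ _).trans (le_of_eq ?_)
      rw [e1, abs_of_pos (mul_pos hs hq0)]
      ring
    rw [abs_mul, e1] at hform
    have hu0 : 0 ≤ u := abs_nonneg _
    have h3 : 1 ≤ u * r.den * ((√5 + u) * r.den) :=
      hform.trans (mul_le_mul_of_nonneg_left e2 (by positivity))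
    have h5 : c * (c - √5) * (r.den : ℝ) ^ 2 < 1 := by
      have hpos : 0 < u * (r.den : ℝ) ^ 2 := by nlinarith
      have h4 : c < √5 + u := by nlinarith [mul_lt_mul_of_pos_right hr (by linarith : 0 < √5 + u)]
      nlinarith [mul_lt_mul_of_pos_left (show c - √5 < u by linarith)
        (show 0 < c * (r.den : ℝ) ^ 2 by positivity)]
    have hden : (r.den : ℝ) ≤ B + 1 := by
      have : (r.den : ℝ) ^ 2 ≤ B := by
        rw [le_div_iff₀ (by nlinarith)]
        linarith
      nlinarith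
    refine ⟨Nat.cast_le.1 (hden.trans hN), ?_⟩
    have h6 : |(r.num : ℝ)| ≤ 3 * N := by
      have hu1 : u * r.den ≤ 1 := by
        have : 1 ≤ c := by
          have : 1 ≤ √5 := Real.one_le_sqrt.2 (by norm_num)
          linarith
        nlinarith [mul_le_mul_of_nonneg_left (one_le_mul_of_one_le_of_one_le this hq)
          (mul_nonneg hu0 hq0.le)]
      have h7 : |(r.num : ℝ)| ≤ |(r.num : ℝ) - goldenRatio * r.den| + |goldenRatio * r.den| := by
        simpa using abs_add_le ((r.num : ℝ) - goldenRatio * r.den) (goldenRatio * r.den)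
      rw [e1, abs_of_pos (mul_pos goldenRatio_pos hq0)] at h7
      nlinarith [goldenRatio_lt_two]
    exact_mod_cast h6
  refine Set.Finite.subset (((Set.finite_Icc (-(3 * N : ℤ)) (3 * N)).prod
    (Set.finite_le_nat N)).image fun z : ℤ × ℕ => (z.1 : ℚ) / z.2) ?_
  intro r hr
  obtain ⟨h1, h2⟩ := hbound r hr
  exact ⟨(r.num, r.den), ⟨abs_le.1 h2, h1⟩, r.num_div_den⟩

end FA.MarkovMinima

end
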