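import Fermat.Agent.MarkovMinima.Golden
import Fermat.Agent.MarkovMinima.Hurwitz
import Mathlib.Algebra.Order.Floor.Ring
import Mathlib.RingTheory.Int.Basic

/-!
# The first two Markov minima of indefinite binary forms

A form with a value near its least absolute value as first coefficient is a multiple of
`x² + β x y + γ y²`, `0 ≤ β ≤ 1`; the values at `(0, 1)` and `(1, 1)` show that the discriminant
`β² - 4 γ` is about `8` or more unless this is near the golden form, hence equal to it.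
-/

set_option autoImplicit false

noncomputable section

open Real

namespace FA.MarkovMinima

/-- The values of `a x² + b x y + c y²`. -/
def binForm (a b c : ℝ) (v : ℤ × ℤ) : ℝ :=
  a * (v.1 : ℝ) ^ 2 + b * v.1 * v.2 + c * (v.2 : ℝ) ^ 2

/-- The greatest lower bound of the absolute values at nonzero integral points. -/
def binMin (a b c : ℝ) : ℝ := sInf ((fun v => |binForm a b c v|) '' {v | v ≠ 0})

/-- Equivalent to a multiple of `x² + x y - y²`. -/
def IsGoldenMultiple (a b c : ℝ) : Prop :=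
  ∃ (p q r s : ℤ) (t : ℝ), |p * s - q * r| = 1 ∧
    ∀ x y : ℤ, binForm a b c (p * x + q * y, r * x + s * y) = t * monicForm 1 (-1) (x, y)

theorem binMin_le (a b c : ℝ) {v : ℤ × ℤ} (hv : v ≠ 0) : binMin a b c ≤ |binForm a b c v| :=
  csInf_le ⟨0, by rintro _ ⟨w, -, rfl⟩; exact abs_nonneg _⟩ ⟨v, hv, rfl⟩

theorem le_binMin {a b c m : ℝ} (h : ∀ v : ℤ × ℤ, v ≠ 0 → m ≤ |binForm a b c v|) :
    m ≤ binMin a b c :=
  le_csInf ⟨_, (1, 0), by simp, rfl⟩ (by rintro _ ⟨w, hw, rfl⟩; exact h w hw)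

theorem exists_near_binMin {a b c m : ℝ} (h : binMin a b c < m) :
    ∃ v : ℤ × ℤ, v ≠ 0 ∧ |binForm a b c v| < m := by
  obtain ⟨_, ⟨v, hv, rfl⟩, hlt⟩ :=
    exists_lt_of_csInf_lt (s := (fun v => |binForm a b c v|) '' {v | v ≠ 0})
      ⟨_, (1, 0), by simp, rfl⟩ h
  exact ⟨v, hv, hlt⟩

theorem transformed_ne_zero {p q r s : ℤ} (h : |p * s - q * r| = 1) {x y : ℤ}
    (hv : (x, y) ≠ (0 : ℤ × ℤ)) : (p * x + q * y, r * x + s * y) ≠ (0 : ℤ × ℤ) := fun h0 => by
  simp only [Prod.mk_eq_zero] at h0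
  have hd : p * s - q * r ≠ 0 := fun e => by simp [e] at h
  have hx : (p * s - q * r) * x = 0 := by linear_combination s * h0.1 - q * h0.2
  have hy : (p * s - q * r) * y = 0 := by linear_combination p * h0.2 - r * h0.1
  exact hv (Prod.ext ((mul_eq_zero.1 hx).resolve_left hd) ((mul_eq_zero.1 hy).resolve_left hd))

theorem disc_transform {a b c t β γ : ℝ} {p q r s : ℤ} (h : |p * s - q * r| = 1)
    (hv : ∀ x y : ℤ, binForm a b c (p * x + q * y, r * x + s * y) = t * monicForm β γ (x, y)) :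
    t ^ 2 * (β ^ 2 - 4 * γ) = b ^ 2 - 4 * a * c := by
  have h1 := hv 1 0
  have h2 := hv 0 1
  have h3 := hv 1 1
  simp only [binForm, monicForm] at h1 h2 h3
  push_cast at h1 h2 h3
  ring_nf at h1 h2 h3
  have hd : ((p : ℝ) * s - q * r) ^ 2 = 1 := by
    have : (p * s - q * r) ^ 2 = 1 := by rw [← sq_abs, h, one_pow]
    exact_mod_cast this
  have e : t * β = 2 * a * p * q + b * (p * s + q * r) + 2 * c * r * s := by linarith
  have e1 : t = a * (p : ℝ) ^ 2 + b * p * r + c * (r : ℝ) ^ 2 := by linarith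
  have e2 : t * γ = a * (q : ℝ) ^ 2 + b * q * s + c * (s : ℝ) ^ 2 := by linarith
  linear_combination (t * β + (2 * a * p * q + b * (p * s + q * r) + 2 * c * r * s)) * e -
    4 * (t * γ) * e1 - 4 * (a * (p : ℝ) ^ 2 + b * p * r + c * (r : ℝ) ^ 2) * e2 +
    (b ^ 2 - 4 * a * c) * hd

theorem exists_normal (a b c : ℝ) {p r : ℤ} (hpr : IsCoprime p r)
    (h0 : binForm a b c (p, r) ≠ 0) :
    ∃ (q s : ℤ) (β γ : ℝ), |p * s - q * r| = 1 ∧ 0 ≤ β ∧ β ≤ 1 ∧
      ∀ x y : ℤ, binForm a b c (p * x + q * y, r * x + s * y) =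
        binForm a b c (p, r) * monicForm β γ (x, y) := by
  obtain ⟨u, w, huw⟩ := hpr
  set t := binForm a b c (p, r) with ht
  simp only [binForm] at ht
  let B : ℤ → ℤ → ℝ := fun q s => 2 * a * p * q + b * (p * s + q * r) + 2 * c * r * s
  obtain ⟨j, hj⟩ : ∃ j : ℤ, |B (-w) u / t + 2 * j| ≤ 1 := by
    refine ⟨-⌊(B (-w) u / t + 1) / 2⌋, ?_⟩
    have h1 := Int.floor_le ((B (-w) u / t + 1) / 2)
    have h2 := Int.lt_floor_add_one ((B (-w) u / t + 1) / 2)
    rw [abs_le]
    push_cast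
    constructor <;> linarith
  obtain ⟨q, s, hdet, hB0, hB1⟩ : ∃ q s : ℤ, |p * s - q * r| = 1 ∧ 0 ≤ B q s / t ∧
      B q s / t ≤ 1 := by
    have hd : p * (u + j * r) - (-w + j * p) * r = 1 := by linear_combination huw
    have e : B (-w + j * p) (u + j * r) / t = B (-w) u / t + 2 * j := by
      field_simp
      rw [ht]
      simp only [B]
      push_cast
      ring
    rcases le_total 0 (B (-w) u / t + 2 * j) with h | h
    · exact ⟨-w + j * p, u + j * r, by rw [hd]; rfl, by rwa [e],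
        by rw [e]; exact (le_abs_self _).trans hj⟩
    · refine ⟨-(-w + j * p), -(u + j * r), ?_, ?_, ?_⟩
      · rw [show p * -(u + j * r) - -(-w + j * p) * r = -1 by linear_combination -huw]
        rfl
      all_goals
        rw [show B (-(-w + j * p)) (-(u + j * r)) = -B (-w + j * p) (u + j * r) by
          simp only [B]; push_cast; ring, neg_div, e]
      · linarith
      · exact (neg_le_abs _).trans hj
  refine ⟨q, s, B q s / t, binForm a b c (q, s) / t, hdet, hB0, hB1, fun x y => ?_⟩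
  simp only [binForm, monicForm, B]
  push_cast
  field_simp
  rw [ht]
  ring

/-- **The second Markov minimum**: at most `√(D / 8)` unless golden. -/
theorem binMin_le_or_golden {a b c : ℝ} (hD : 0 < b ^ 2 - 4 * a * c) :
    binMin a b c ≤ √((b ^ 2 - 4 * a * c) / 8) ∨ IsGoldenMultiple a b c := by
  set D := b ^ 2 - 4 * a * c
  set m := binMin a b c
  refine or_iff_not_imp_left.2 fun h => ?_
  rw [not_le] at h
  have hm : 0 < m := (Real.sqrt_nonneg _).trans_lt h
  rw [Real.sqrt_lt' hm, div_lt_iff₀ (by norm_num)] at h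
  set δ := min (1 / 200) ((8 * m ^ 2 - D) / (8 * m ^ 2))
  have hδ : 0 < δ := lt_min (by norm_num) (div_pos (by linarith) (by positivity))
  have hδ1 : δ ≤ 1 / 200 := min_le_left _ _
  have hδ2 : δ * (8 * m ^ 2) ≤ 8 * m ^ 2 - D :=
    (le_div_iff₀ (by positivity)).1 (min_le_right _ _)
  obtain ⟨v, hv, hlt⟩ := exists_near_binMin (show m < m / (1 - δ) by
    rw [lt_div_iff₀ (by linarith)]
    nlinarith)
  obtain ⟨p, r, g, hg, hpr, hvg⟩ : ∃ p r g : ℤ, g ≠ 0 ∧ IsCoprime p r ∧
      v = (g * p, g * r) := by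
    have hv' : v.1 ≠ 0 ∨ v.2 ≠ 0 := by
      by_contra! h
      exact hv (Prod.ext h.1 h.2)
    obtain ⟨p, r, hpr, e1, e2⟩ := Int.exists_gcd_one (Int.gcd_pos_iff.2 hv')
    exact ⟨p, r, Int.gcd v.1 v.2, by exact_mod_cast (Int.gcd_pos_iff.2 hv').ne',
      Int.isCoprime_iff_gcd_eq_one.2 hpr, Prod.ext (e1.trans (mul_comm _ _))
        (e2.trans (mul_comm _ _))⟩
  have hpr0 : ((p, r) : ℤ × ℤ) ≠ 0 := fun h => by
    simp only [Prod.mk_eq_zero] at h
    rw [h.1, h.2] at hpr
    exact not_isCoprime_zero_zero hpr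
  have hlow : m ≤ |binForm a b c (p, r)| := binMin_le a b c hpr0
  have hup : (1 - δ) * |binForm a b c (p, r)| < m := by
    have e : binForm a b c v = (g : ℝ) ^ 2 * binForm a b c (p, r) := by
      rw [hvg]
      simp only [binForm]
      push_cast
      ring
    rw [e, abs_mul, abs_of_nonneg (sq_nonneg _), lt_div_iff₀ (by linarith)] at hlt
    have hg1 : (1 : ℝ) ≤ (g : ℝ) ^ 2 := by
      exact_mod_cast (show (1 : ℤ) ≤ g ^ 2 from pow_two_pos_of_ne_zero hg)
    nlinarith [mul_nonneg (sub_nonneg.2 hg1) (mul_nonneg (show (0 : ℝ) ≤ 1 - δ by linarith)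
      (abs_nonneg (binForm a b c (p, r))))]
  have h0 : binForm a b c (p, r) ≠ 0 := fun h => by rw [h, abs_zero] at hlow; linarith
  obtain ⟨q, s, β, γ, hdet, hβ0, hβ1, hval⟩ := exists_normal a b c hpr h0
  set t := binForm a b c (p, r)
  have hdisc : t ^ 2 * (β ^ 2 - 4 * γ) = D := disc_transform hdet hval
  have hg : ∀ w : ℤ × ℤ, w ≠ 0 → 1 - δ ≤ |monicForm β γ w| := by
    rintro ⟨x, y⟩ hw
    have h1 : m ≤ |t| * |monicForm β γ (x, y)| := by
      rw [← abs_mul, ← hval x y]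
      exact binMin_le a b c (transformed_ne_zero hdet hw)
    nlinarith [abs_pos.2 h0]
  have hγ : γ ≤ -1 + δ := by
    have h := hg (0, 1) (by simp)
    rw [show monicForm β γ (0, 1) = γ by simp [monicForm]] at h
    have ht2 : 0 < t ^ 2 := pow_two_pos_of_ne_zero h0
    have hpos : 0 < β ^ 2 - 4 * γ := by
      by_contra! hle
      nlinarith
    rcases le_abs.1 h with h | h
    · nlinarith
    · linarith
  have hsmall : t ^ 2 * (β ^ 2 - 4 * γ) < t ^ 2 * (8 - 4 * δ) := by
    rw [hdisc]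
    have h2 : m ^ 2 ≤ t ^ 2 := by
      rw [← sq_abs t]
      exact pow_le_pow_left₀ hm.le hlow 2
    nlinarith
  have h11 := hg (1, 1) (by simp)
  rw [show monicForm β γ (1, 1) = 1 + β + γ by simp [monicForm]] at h11
  rcases le_abs.1 h11 with h11 | h11
  · have hγ2 : -1 - δ ≤ γ := by linarith
    obtain ⟨rfl, rfl⟩ := golden_isolated hδ1 (abs_le.2 ⟨by linarith, by linarith⟩)
      (abs_le.2 ⟨by linarith, by linarith⟩) hg
    exact ⟨p, q, r, s, t, hdet, hval⟩
  · exfalso
    nlinarith [pow_two_pos_of_ne_zero h0]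

theorem golden_values {x y : ℤ} (h : (x, y) ≠ (0 : ℤ × ℤ)) :
    1 ≤ |monicForm 1 (-1) (x, y)| ∧ 1 ≤ |monicForm 2 (-1) (x, y)| := by
  have key : ∀ (z : ℤ) (k : ℕ), Irrational (√k) → z ^ 2 = k * y ^ 2 → y = 0 := fun z k hk he => by
    by_contra hy
    refine hk.ne_rational |z| |y| ?_
    push_cast
    rw [← abs_div, ← Real.sqrt_sq_eq_abs, div_pow, show ((z : ℝ)) ^ 2 = k * (y : ℝ) ^ 2 by
      exact_mod_cast he, mul_div_cancel_right₀ _ (pow_ne_zero _ (Int.cast_ne_zero.2 hy))]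
  simp only [ne_eq, Prod.mk_eq_zero] at h
  have h1 : x ^ 2 + x * y - y ^ 2 ≠ 0 := fun e => by
    obtain rfl := key (2 * x + y) 5 (by exact_mod_cast irrational_sqrt_five)
      (by linear_combination 4 * e)
    exact h ⟨by simpa using e, rfl⟩
  have h2 : x ^ 2 + 2 * x * y - y ^ 2 ≠ 0 := fun e => by
    obtain rfl := key (x + y) 2 (by exact_mod_cast irrational_sqrt_two) (by linear_combination e)
    exact h ⟨by simpa using e, rfl⟩
  constructor
  · rw [show monicForm 1 (-1) (x, y) = ((x ^ 2 + x * y - y ^ 2 : ℤ) : ℝ) by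
      simp only [monicForm]; push_cast; ring]
    exact_mod_cast Int.one_le_abs h1
  · rw [show monicForm 2 (-1) (x, y) = ((x ^ 2 + 2 * x * y - y ^ 2 : ℤ) : ℝ) by
      simp only [monicForm]; push_cast; ring]
    exact_mod_cast Int.one_le_abs h2

/-- A golden multiple has least value `√(D / 5)`. -/
theorem binMin_golden {a b c : ℝ} (h : IsGoldenMultiple a b c) :
    binMin a b c = √((b ^ 2 - 4 * a * c) / 5) ∧
      ∃ v : ℤ × ℤ, v ≠ 0 ∧ |binForm a b c v| = √((b ^ 2 - 4 * a * c) / 5) := by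
  obtain ⟨p, q, r, s, t, hdet, hval⟩ := h
  have ht : |t| = √((b ^ 2 - 4 * a * c) / 5) := by
    rw [← Real.sqrt_sq_eq_abs, ← disc_transform hdet hval]
    congr 1
    ring
  have hv : ∃ v : ℤ × ℤ, v ≠ 0 ∧ |binForm a b c v| = √((b ^ 2 - 4 * a * c) / 5) := by
    refine ⟨(p * 1 + q * 0, r * 1 + s * 0), transformed_ne_zero hdet (by simp), ?_⟩
    rw [hval 1 0, ← ht]
    simp [monicForm]
  refine ⟨le_antisymm ?_ (le_binMin fun w hw => ?_), hv⟩
  · obtain ⟨v, hv0, hve⟩ := hv
    exact hve ▸ binMin_le a b c hv0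
  · obtain ⟨x, y, rfl⟩ : ∃ x y : ℤ, w = (p * x + q * y, r * x + s * y) := by
      have hd : (p * s - q * r) ^ 2 = 1 := by rw [← sq_abs, hdet, one_pow]
      exact ⟨(p * s - q * r) * (s * w.1 - q * w.2), (p * s - q * r) * (p * w.2 - r * w.1),
        Prod.ext (by linear_combination -w.1 * hd) (by linear_combination -w.2 * hd)⟩
    rw [hval, ← ht, abs_mul]
    refine le_mul_of_one_le_right (abs_nonneg t) (golden_values ?_).1
    rintro h
    simp only [Prod.mk_eq_zero] at h
    exact hw (by simp [h.1, h.2])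

/-- **The first Markov minimum**: a value at most `√(D / 5)`. -/
theorem exists_le_five {a b c : ℝ} (hD : 0 < b ^ 2 - 4 * a * c) :
    ∃ v : ℤ × ℤ, v ≠ 0 ∧ |binForm a b c v| ≤ √((b ^ 2 - 4 * a * c) / 5) := by
  rcases binMin_le_or_golden hD with h | h
  · obtain ⟨v, hv, hlt⟩ := exists_near_binMin (h.trans_lt
      (Real.sqrt_lt_sqrt (by positivity) (by linarith : (b ^ 2 - 4 * a * c) / 8 <
        (b ^ 2 - 4 * a * c) / 5)))
    exact ⟨v, hv, hlt.le⟩
  · obtain ⟨v, hv, he⟩ := (binMin_golden h).2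
    exact ⟨v, hv, he.le⟩

/-- Both bounds are sharp. -/
theorem binMin_examples : binMin 1 1 (-1) = 1 ∧ binMin 1 2 (-1) = 1 := by
  have e : ∀ β v, binForm 1 β (-1) v = monicForm β (-1) v := fun β v => by
    simp [binForm, monicForm]
  constructor
  all_goals
    refine le_antisymm ((binMin_le _ _ _ (v := (1, 0)) (by simp)).trans_eq (by simp [binForm])) ?_
    refine le_binMin fun v hv => ?_
    rw [e]
  · exact (golden_values hv).1
  · exact (golden_values hv).2

end FA.MarkovMinima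

end
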