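import Mathlib.NumberTheory.Real.GoldenRatio
import Mathlib.Tactic

/-!
# The form `x² + x y - y²` is isolated

A nearby form differs by `A L² + B L'² + C (x² + x y - y²)`, `L = x + φ y`, `L' = x + ψ y`. On the
orbit of the automorph `(x, y) ↦ (x + y, x + 2 y)` the first term grows by `φ⁴` and the second
decreases; if `A ≠ 0`, one of the values `±1` is moved towards `0`, noticeably but not too far.
-/

set_option autoImplicit false

noncomputable section

open Real

namespace FA.MarkovMinima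

/-- The values of `x² + β x y + γ y²` at integral points. -/
def monicForm (β γ : ℝ) (v : ℤ × ℤ) : ℝ :=
  (v.1 : ℝ) ^ 2 + β * v.1 * v.2 + γ * (v.2 : ℝ) ^ 2

/-- The automorph of the golden form. -/
def goldenStep (v : ℤ × ℤ) : ℤ × ℤ := (v.1 + v.2, v.1 + 2 * v.2)

/-- The first linear factor. -/
def linPlus (v : ℤ × ℤ) : ℝ := v.1 + goldenRatio * v.2

/-- The second linear factor. -/
def linMinus (v : ℤ × ℤ) : ℝ := v.1 + goldenConj * v.2

/-- The deformed golden form. -/
def deformed (A B C : ℝ) (v : ℤ × ℤ) : ℝ :=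
  A * linPlus v ^ 2 + B * linMinus v ^ 2 + (1 + C) * (linPlus v * linMinus v)

theorem lin_mul (v : ℤ × ℤ) :
    linPlus v * linMinus v = (v.1 : ℝ) ^ 2 + v.1 * v.2 - (v.2 : ℝ) ^ 2 := by
  simp only [linPlus, linMinus]
  linear_combination (v.2 : ℝ) ^ 2 * goldenRatio_mul_goldenConj +
    (v.1 : ℝ) * v.2 * goldenRatio_add_goldenConj

theorem lin_step (v : ℤ × ℤ) :
    linPlus (goldenStep v) = goldenRatio ^ 2 * linPlus v ∧
      linMinus (goldenStep v) = goldenConj ^ 2 * linMinus v := by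
  simp only [linPlus, linMinus, goldenStep]
  push_cast
  exact ⟨by linear_combination -((v.1 : ℝ) + goldenRatio * v.2 + (v.2 : ℝ)) * goldenRatio_sq,
    by linear_combination -((v.1 : ℝ) + goldenConj * v.2 + (v.2 : ℝ)) * goldenConj_sq⟩

theorem lin_iterate (k : ℕ) (v : ℤ × ℤ) :
    linPlus (goldenStep^[k] v) = (goldenRatio ^ 2) ^ k * linPlus v ∧
      linMinus (goldenStep^[k] v) = (goldenConj ^ 2) ^ k * linMinus v := by
  induction k with
  | zero => simp
  | succ k ih =>
    rw [Function.iterate_succ_apply']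
    obtain ⟨h1, h2⟩ := lin_step (goldenStep^[k] v)
    rw [h1, h2, ih.1, ih.2]
    constructor <;> ring

/-- **The growing part vanishes.** -/
theorem deformed_plus_zero {A B C δ : ℝ} (hδ : δ ≤ 1 / 200) (hA : |A| ≤ δ) (hB : |B| ≤ δ)
    (hC : |C| ≤ 2 * δ) (hmin : ∀ v : ℤ × ℤ, v ≠ 0 → 1 - δ ≤ |deformed A B C v|) : A = 0 := by
  by_contra h0
  set lam := goldenRatio ^ 4 with hlam
  have hφ2 : goldenRatio ^ 2 = goldenRatio + 1 := goldenRatio_sq
  have hφl : (1.6 : ℝ) ≤ goldenRatio := by nlinarith [goldenRatio_pos]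
  have hφu : goldenRatio ≤ 1.62 := by nlinarith [goldenRatio_pos]
  have hlu : lam ≤ 7 := by rw [hlam]; nlinarith
  have hl1 : 1 < lam := one_lt_pow₀ one_lt_goldenRatio (by norm_num)
  obtain ⟨k, hk, hk'⟩ : ∃ k, 1 / 20 < |A| * lam ^ k ∧ |A| * lam ^ k ≤ 7 / 20 := by
    have hex : ∃ k, 1 / 20 < |A| * lam ^ k := by
      obtain ⟨k, hk⟩ := pow_unbounded_of_one_lt (1 / 20 / |A|) hl1
      exact ⟨k, by rwa [div_lt_iff₀' (abs_pos.2 h0)] at hk⟩
    classical
    refine ⟨Nat.find hex, Nat.find_spec hex, ?_⟩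
    rcases Nat.eq_zero_or_pos (Nat.find hex) with he | hpos
    · rw [he, pow_zero, mul_one]
      linarith
    · obtain ⟨j, hj⟩ := Nat.exists_eq_add_of_le hpos
      have hmj : |A| * lam ^ j ≤ 1 / 20 := not_lt.1 (Nat.find_min hex (by omega))
      rw [hj, pow_add, pow_one, mul_comm lam, ← mul_assoc]
      nlinarith [mul_nonneg (abs_nonneg A) (pow_nonneg (zero_le_one.trans hl1.le) j)]
  obtain ⟨μ, hμdef⟩ : ∃ μ, μ = (goldenConj ^ 4) ^ k := ⟨_, rfl⟩
  have hψ4 : goldenConj ^ 2 ≤ 1 := by nlinarith [goldenConj_neg, neg_one_lt_goldenConj]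
  have hμ : 0 ≤ μ ∧ μ ≤ 1 := by
    rw [hμdef]
    refine ⟨by positivity, pow_le_one₀ (by positivity) ?_⟩
    calc goldenConj ^ 4 = (goldenConj ^ 2) ^ 2 := by ring
      _ ≤ 1 := pow_le_one₀ (sq_nonneg _) hψ4
  have hval : ∀ v : ℤ × ℤ, deformed A B C (goldenStep^[k] v) = A * lam ^ k * linPlus v ^ 2 +
      B * μ * linMinus v ^ 2 + (1 + C) * (linPlus v * linMinus v) := fun v => by
    obtain ⟨h1, h2⟩ := lin_iterate k v
    have e : (goldenRatio * goldenConj) ^ (2 * k) = 1 := by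
      rw [pow_mul, goldenRatio_mul_goldenConj, neg_one_sq, one_pow]
    rw [deformed, h1, h2, hlam, hμdef]
    generalize goldenRatio = p at e ⊢
    generalize goldenConj = q at e ⊢
    linear_combination (1 + C) * (linPlus v * linMinus v) * e
  have hne : ∀ v : ℤ × ℤ, linPlus v ≠ 0 → goldenStep^[k] v ≠ 0 := fun v hv h => by
    have h1 := (lin_iterate k v).1
    rw [h] at h1
    simp only [linPlus, Prod.fst_zero, Prod.snd_zero, Int.cast_zero, mul_zero, add_zero] at h1
    exact mul_ne_zero (pow_ne_zero _ (pow_ne_zero _ goldenRatio_ne_zero)) hv h1.symm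
  obtain ⟨hC1, hC2⟩ := abs_le.1 hC
  obtain ⟨hB1, hB2⟩ := abs_le.1 hB
  have hBμ : -δ ≤ B * μ ∧ B * μ ≤ δ := by
    constructor <;> nlinarith [hμ.1, hμ.2]
  rcases lt_or_gt_of_ne h0 with hneg | hpos
  · have hlin : linPlus ((1, 0) : ℤ × ℤ) = 1 := by simp [linPlus]
    have h := hmin _ (hne (1, 0) (by rw [hlin]; exact one_ne_zero))
    rw [hval, hlin, show linMinus ((1, 0) : ℤ × ℤ) = 1 by simp [linMinus]] at h
    rw [abs_of_neg hneg] at hk hk'
    rcases le_abs.1 h with h | h <;> linarith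
  · have hlin : linPlus ((0, 1) : ℤ × ℤ) = goldenRatio := by simp [linPlus]
    have h := hmin _ (hne (0, 1) (by rw [hlin]; exact goldenRatio_ne_zero))
    rw [hval, hlin, show linMinus ((0, 1) : ℤ × ℤ) = goldenConj by simp [linMinus],
      goldenRatio_mul_goldenConj] at h
    rw [abs_of_pos hpos] at hk hk'
    have hBψ : -δ ≤ B * μ * goldenConj ^ 2 ∧ B * μ * goldenConj ^ 2 ≤ δ := by
      constructor <;> nlinarith [sq_nonneg goldenConj, hBμ.1, hBμ.2]
    have hlow : 2.5 * (1 / 20) ≤ A * lam ^ k * goldenRatio ^ 2 := by nlinarith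
    have hup : A * lam ^ k * goldenRatio ^ 2 ≤ 7 / 20 * 2.62 := by nlinarith
    rcases le_abs.1 h with h | h <;> linarith [hBψ.1, hBψ.2]

/-- **Isolation.** -/
theorem golden_isolated {β γ δ : ℝ} (hδ : δ ≤ 1 / 200) (hβ : |β - 1| ≤ 2 * δ)
    (hγ : |γ + 1| ≤ δ) (hmin : ∀ v : ℤ × ℤ, v ≠ 0 → 1 - δ ≤ |monicForm β γ v|) :
    β = 1 ∧ γ = -1 := by
  set u := β - 1
  set w := γ + 1
  set A := (w - goldenConj * u) / 5
  set B := (w - goldenRatio * u) / 5
  set C := -A - B
  obtain ⟨u1, u2⟩ := abs_le.1 hβ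
  obtain ⟨w1, w2⟩ := abs_le.1 hγ
  have hψ : -1 < goldenConj ∧ goldenConj < 0 := ⟨neg_one_lt_goldenConj, goldenConj_neg⟩
  have hφ : 1 < goldenRatio ∧ goldenRatio < 2 := ⟨one_lt_goldenRatio, goldenRatio_lt_two⟩
  have hA : |A| ≤ δ := by
    rw [abs_le]
    constructor <;> simp only [A] <;> nlinarith
  have hB : |B| ≤ δ := by
    rw [abs_le]
    constructor <;> simp only [B] <;> nlinarith
  have hC : |C| ≤ 2 * δ := by
    obtain ⟨a1, a2⟩ := abs_le.1 hA
    obtain ⟨b1, b2⟩ := abs_le.1 hB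
    rw [abs_le]
    constructor <;> simp only [C] <;> linarith
  have hdef : ∀ v : ℤ × ℤ, deformed A B C v = monicForm β γ v := fun v => by
    have h5 : √5 ^ 2 = 5 := Real.sq_sqrt (by norm_num)
    simp only [deformed, monicForm, linPlus, linMinus, A, B, C, u, w, goldenRatio, goldenConj]
    linear_combination ((β - 1) * v.1 * v.2 / 5 + (γ + 1) * (v.2 : ℝ) ^ 2 / 5 -
      (v.2 : ℝ) ^ 2 / 4) * h5
  have hA0 : A = 0 := deformed_plus_zero hδ hA hB hC fun v hv => hdef v ▸ hmin v hv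
  have hB0 : B = 0 := by
    refine deformed_plus_zero (A := B) (B := A) (C := C) hδ hB hA hC fun v hv => ?_
    have h1 : linPlus (v.1 + v.2, -v.2) = linMinus v ∧
        linMinus (v.1 + v.2, -v.2) = linPlus v := by
      simp only [linPlus, linMinus]
      push_cast
      exact ⟨by linear_combination -(v.2 : ℝ) * goldenRatio_add_goldenConj,
        by linear_combination -(v.2 : ℝ) * goldenRatio_add_goldenConj⟩
    have h2 : deformed B A C v = deformed A B C (v.1 + v.2, -v.2) := by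
      simp only [deformed, h1.1, h1.2]
      ring
    rw [h2, hdef]
    refine hmin _ fun h => hv ?_
    obtain ⟨e1, e2⟩ := Prod.mk.injEq _ _ _ _ ▸ (h : (v.1 + v.2, -v.2) = ((0 : ℤ), (0 : ℤ)))
    exact Prod.ext (show v.1 = 0 by omega) (show v.2 = 0 by omega)
  simp only [A, B] at hA0 hB0
  have hu : u = 0 := by
    have : (goldenRatio - goldenConj) * u = 0 := by linarith
    exact (mul_eq_zero.1 this).resolve_left (by linarith)
  have hw : w = 0 := by
    rw [hu] at hA0
    linarith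
  exact ⟨by linarith, by linarith⟩

end FA.MarkovMinima

end
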