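import Fermat.Agent.MarkovMinima.Binary
import Mathlib.Algebra.Order.Round
import Mathlib.NumberTheory.DiophantineApproximation.Basic

/-!
# The product of two inhomogeneous linear forms

Along a primitive vector of small product `|p q|` one line of the grid has determinant offset at
most half of `|Δ|`; on it a quadratic with unit steps is at most `max (1/4) (L / 2)` somewhere, `L`
the distance of its roots.
-/

set_option autoImplicit false

noncomputable section

open Real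

namespace FA.MarkovMinima

/-- A product of two linear factors at an integer. -/
theorem exists_shift_small (α β : ℝ) :
    ∃ t : ℤ, |((t : ℝ) + α) * (t + β)| ≤ max (1 / 4) (|β - α| / 2) ∧
      |(t : ℝ) + α| ≤ 1 + |β - α| := by
  obtain ⟨M, hM⟩ : ∃ M, M = (α + β) / 2 := ⟨_, rfl⟩
  obtain ⟨h, hh⟩ : ∃ h, h = |β - α| / 2 := ⟨_, rfl⟩
  have hh0 : 0 ≤ h := by rw [hh]; positivity
  have e : ∀ t : ℤ, ((t : ℝ) + α) * (t + β) = ((t : ℝ) + M) ^ 2 - h ^ 2 := fun t => by
    rw [hM, hh, div_pow, sq_abs]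
    ring
  have hd : ∀ t : ℤ, |(t : ℝ) + M| ≤ 1 + h → |(t : ℝ) + α| ≤ 1 + |β - α| := fun t ht => by
    refine (le_of_eq_of_le (congrArg abs (show (t : ℝ) + α = ((t : ℝ) + M) + (α - β) / 2 by
      rw [hM]; ring)) (abs_add_le _ _)).trans ?_
    rw [abs_div, abs_of_pos (two_pos : (0 : ℝ) < 2), abs_sub_comm α]
    linarith
  rw [show |β - α| / 2 = h from hh.symm]
  rcases le_total h 1 with h1 | h1
  · refine ⟨-round M, ?_, hd _ ?_⟩
    swap
    · push_cast
      rw [show -(round M : ℝ) + M = M - round M by ring]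
      linarith [abs_sub_round M]
    rw [e, abs_le]
    have hr := abs_sub_round M
    have hh2 : h ^ 2 ≤ h := by nlinarith
    have hs : ((-round M : ℤ) + M : ℝ) ^ 2 ≤ 1 / 4 := by
      push_cast
      rw [← sq_abs, show -(round M : ℝ) + M = M - round M by ring]
      nlinarith [abs_nonneg (M - round M)]
    constructor
    · nlinarith [le_max_right (1 / 4 : ℝ) h, sq_nonneg ((-round M : ℤ) + M : ℝ)]
    · nlinarith [le_max_left (1 / 4 : ℝ) h]
  · obtain ⟨l, hl⟩ : ∃ l, l = √(h ^ 2 - h) := ⟨_, rfl⟩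
    have hl0 : 0 ≤ l := hl ▸ Real.sqrt_nonneg _
    have hl2 : l ^ 2 = h ^ 2 - h := by rw [hl, Real.sq_sqrt]; nlinarith
    refine ⟨⌈l - M⌉, ?_, hd _ ?_⟩
    swap
    · have b1 := Int.le_ceil (l - M)
      have b2 := Int.ceil_lt_add_one (l - M)
      have : l ≤ h := by nlinarith
      rw [abs_le]
      constructor <;> linarith
    rw [e]
    have b1 := Int.le_ceil (l - M)
    have b2 := Int.ceil_lt_add_one (l - M)
    have hlh : l ≤ h - 1 / 2 := by nlinarith
    refine le_trans (abs_le.2 ⟨?_, ?_⟩) (le_max_right _ _)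
    · nlinarith
    · nlinarith

/-- A point with small product on one line of the grid. -/
theorem exists_line_point {p q r s u v D : ℝ} {k : ℤ} (hp0 : p ≠ 0) (hq0 : q ≠ 0)
    (hpq : |p * q| ≤ |D|) (hoff : |p * (k * s - v) - q * (k * r - u)| ≤ |D| / 2) :
    ∃ t : ℤ, |((t : ℝ) * p + k * r - u) * (t * q + k * s - v)| ≤ |D| / 4 ∧
      |(t : ℝ) * p + k * r - u| ≤ |p| + |D| / (2 * |q|) := by
  obtain ⟨t, ht, ht'⟩ := exists_shift_small ((k * r - u) / p) ((k * s - v) / q)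
  have hdiff : |p * q| * |(k * s - v) / q - (k * r - u) / p| =
      |p * (k * s - v) - q * (k * r - u)| := by
    rw [← abs_mul]
    congr 1
    field_simp
  refine ⟨t, ?_, ?_⟩
  · rw [show ((t : ℝ) * p + k * r - u) * (t * q + k * s - v) =
      (p * q) * ((t + (k * r - u) / p) * (t + (k * s - v) / q)) by field_simp; ring, abs_mul]
    refine (mul_le_mul_of_nonneg_left ht (abs_nonneg _)).trans ?_
    rw [mul_max_of_nonneg _ _ (abs_nonneg _)]
    refine max_le (by linarith) ?_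
    rw [← mul_div_assoc, hdiff]
    linarith
  · rw [show (t : ℝ) * p + k * r - u = p * (t + (k * r - u) / p) by field_simp; ring, abs_mul]
    refine (mul_le_mul_of_nonneg_left ht' (abs_nonneg _)).trans ?_
    rw [mul_add, mul_one]
    refine add_le_add le_rfl ?_
    rw [le_div_iff₀ (by positivity)]
    rw [abs_mul] at hdiff
    linarith

/-- **Minkowski's theorem.** -/
theorem exists_product_le (a b c d u v : ℝ) (hΔ : a * d - b * c ≠ 0) :
    ∃ x y : ℤ, |(a * x + b * y - u) * (c * x + d * y - v)| ≤ |a * d - b * c| / 4 := by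
  obtain ⟨z, hz, hle⟩ := exists_le_five (a := a * c) (b := a * d + b * c) (c := b * d) (by
    rw [show (a * d + b * c) ^ 2 - 4 * (a * c) * (b * d) = (a * d - b * c) ^ 2 by ring]
    exact pow_two_pos_of_ne_zero hΔ)
  rw [show (a * d + b * c) ^ 2 - 4 * (a * c) * (b * d) = (a * d - b * c) ^ 2 by ring] at hle
  have hz' : z.1 ≠ 0 ∨ z.2 ≠ 0 := by
    by_contra! h
    exact hz (Prod.ext h.1 h.2)
  obtain ⟨x1, y1, hcop, e1, e2⟩ := Int.exists_gcd_one (Int.gcd_pos_iff.2 hz')
  obtain ⟨m, n, hmn⟩ := Int.isCoprime_iff_gcd_eq_one.2 hcop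
  set p := a * x1 + b * y1 with hp
  set q := c * x1 + d * y1 with hq
  set r := a * (-n : ℤ) + b * (m : ℤ) with hr
  set s := c * (-n : ℤ) + d * (m : ℤ) with hs
  set D := a * d - b * c with hD
  have hdet : p * s - q * r = D := by
    have : (m : ℝ) * x1 + n * y1 = 1 := by exact_mod_cast hmn
    rw [hp, hq, hr, hs, hD]
    push_cast
    linear_combination (a * d - b * c) * this
  have hpq : |p * q| ≤ |D| := by
    have hg : (1 : ℝ) ≤ ((Int.gcd z.1 z.2 : ℕ) : ℝ) ^ 2 :=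
      one_le_pow₀ (Nat.one_le_cast.2 (Int.gcd_pos_iff.2 hz'))
    have e : binForm (a * c) (a * d + b * c) (b * d) z =
        ((Int.gcd z.1 z.2 : ℕ) : ℝ) ^ 2 * (p * q) := by
      simp only [binForm, hp, hq]
      have f1 : (z.1 : ℝ) = x1 * ((Int.gcd z.1 z.2 : ℕ) : ℝ) := by exact_mod_cast e1
      have f2 : (z.2 : ℝ) = y1 * ((Int.gcd z.1 z.2 : ℕ) : ℝ) := by exact_mod_cast e2
      rw [f1, f2]
      ring
    rw [e, abs_mul, abs_of_nonneg (sq_nonneg _)] at hle
    refine (le_mul_of_one_le_left (abs_nonneg _) hg).trans (hle.trans ?_)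
    rw [← Real.sqrt_sq_eq_abs]
    exact Real.sqrt_le_sqrt (by nlinarith [sq_nonneg D])
  obtain ⟨k, hk⟩ : ∃ k : ℤ, k = round ((p * v - q * u) / D) := ⟨_, rfl⟩
  have hoff : |(k : ℝ) * D - (p * v - q * u)| ≤ |D| / 2 := by
    have := abs_sub_round ((p * v - q * u) / D)
    rw [← hk, div_sub' hΔ, abs_div, div_le_iff₀ (abs_pos.2 hΔ), abs_sub_comm, mul_comm D] at this
    linarith
  suffices h : ∃ t : ℤ, |((t : ℝ) * p + k * r - u) * (t * q + k * s - v)| ≤ |D| / 4 by
    obtain ⟨t, ht⟩ := h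
    refine ⟨t * x1 + k * -n, t * y1 + k * m, ?_⟩
    rw [hp, hq, hr, hs] at ht
    push_cast at ht ⊢
    convert ht using 2
    ring
  have hsides : ∀ P Q X Y : ℝ, P = 0 → Q ≠ 0 → |P * Y - Q * X| ≤ |D| / 2 →
      ∃ t : ℤ, |(t * P + X) * (t * Q + Y)| ≤ |D| / 4 := fun P Q X Y hP hQ hPQ => by
    refine ⟨-round (Y / Q), ?_⟩
    rw [hP, zero_mul, zero_sub, abs_neg, abs_mul] at hPQ
    have := abs_sub_round (Y / Q)
    rw [hP, mul_zero, zero_add, show ((-round (Y / Q) : ℤ) : ℝ) * Q + Y =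
      (Y / Q - round (Y / Q)) * Q by push_cast; field_simp; ring, abs_mul, abs_mul]
    nlinarith [mul_le_mul_of_nonneg_left this (mul_nonneg (abs_nonneg X) (abs_nonneg Q))]
  have hdet' : |p * (k * s - v) - q * (k * r - u)| ≤ |D| / 2 := by
    refine le_of_eq_of_le (congrArg abs ?_) hoff
    linear_combination (k : ℝ) * hdet
  by_cases hp0 : p = 0
  · obtain ⟨t, ht⟩ := hsides p q _ _ hp0 (fun h => hΔ (by rw [← hdet, hp0, h]; ring)) hdet'
    exact ⟨t, le_of_eq_of_le (congrArg abs (by ring)) ht⟩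
  by_cases hq0 : q = 0
  · obtain ⟨t, ht⟩ := hsides q p _ _ hq0 hp0 (by rwa [abs_sub_comm] at hdet')
    exact ⟨t, le_of_eq_of_le (congrArg abs (by ring)) ht⟩
  obtain ⟨t, ht, -⟩ := exists_line_point hp0 hq0 hpq (r := r) (s := s) (u := u) (v := v) hdet'
  exact ⟨t, ht⟩

/-- **Minkowski's inhomogeneous approximation.** -/
theorem infinite_inhomogeneous {ξ α : ℝ} (hξ : Irrational ξ)
    (hα : ∀ m n : ℤ, (m : ℝ) * ξ + n ≠ α) :
    {q : ℤ | ∃ p : ℤ, |(q : ℝ)| * |q * ξ - p - α| ≤ 1 / 4}.Infinite := fun hfin => by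
  -- the points of the set keep away from zero
  obtain ⟨η, hη, hsep⟩ : ∃ η > 0, ∀ q ∈ {q : ℤ | ∃ p : ℤ, |(q : ℝ)| * |q * ξ - p - α| ≤ 1 / 4},
      ∀ p : ℤ, η ≤ |q * ξ - p - α| := by
    have hpos : ∀ q : ℤ, 0 < |q * ξ - α - round ((q : ℝ) * ξ - α)| := fun q =>
      abs_pos.2 fun h => hα q (-round ((q : ℝ) * ξ - α)) (by push_cast; linarith)
    have hle : ∀ q p : ℤ, |q * ξ - α - round ((q : ℝ) * ξ - α)| ≤ |q * ξ - p - α| :=
      fun q p => (round_le _ p).trans_eq (congrArg abs (by ring))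
    rcases hfin.toFinset.eq_empty_or_nonempty with he | hne
    · exact ⟨1, one_pos, fun q hq => absurd (hfin.mem_toFinset.2 hq) (he ▸ Finset.notMem_empty q)⟩
    obtain ⟨q₀, -, hmin⟩ := hfin.toFinset.exists_min_image
      (fun q : ℤ => |q * ξ - α - round ((q : ℝ) * ξ - α)|) hne
    exact ⟨_, hpos q₀, fun q hq p => (hmin q (hfin.mem_toFinset.2 hq)).trans (hle q p)⟩
  -- a good approximation of large denominator
  obtain ⟨M, hM⟩ := exists_nat_gt (1 / η + 1)
  obtain ⟨e, he, hfar⟩ : ∃ e > 0, ∀ b ∈ Finset.Icc 1 M, ∀ a : ℤ, e ≤ |(b : ℝ) * ξ - a| := by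
    obtain ⟨b₀, hb₀, hmin⟩ := (Finset.Icc 1 M).exists_min_image
      (fun b : ℕ => |(b : ℝ) * ξ - round ((b : ℝ) * ξ)|) ⟨1, Finset.mem_Icc.2 ⟨le_rfl, by
        have : (1 : ℝ) ≤ M := by linarith [one_div_pos.2 hη]
        exact_mod_cast this⟩⟩
    refine ⟨_, abs_pos.2 (sub_ne_zero.2 fun h => ?_), fun b hb a =>
      (hmin b hb).trans (round_le _ a)⟩
    exact (hξ.natCast_mul (Nat.one_le_iff_ne_zero.1 (Finset.mem_Icc.1 hb₀).1)).ne_int _ h
  obtain ⟨N, hN⟩ := exists_nat_gt (max (1 / e) (max (2 / η) 1))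
  simp only [max_lt_iff] at hN
  obtain ⟨g, hg1, hgN⟩ := Real.exists_rat_abs_sub_le_and_den_le ξ
    (n := N) (Nat.cast_pos.1 (one_pos.trans hN.2.2))
  have hden : (0 : ℝ) < g.den := Nat.cast_pos.2 g.den_pos
  have hp : |(g.den : ℝ) * ξ - g.num| ≤ 1 / (N + 1) := by
    rw [show (g.den : ℝ) * ξ - g.num = g.den * (ξ - g) by
      rw [Rat.cast_def]; field_simp, abs_mul, abs_of_pos hden]
    refine (mul_le_mul_of_nonneg_left hg1 hden.le).trans_eq ?_
    field_simp
  have hbig : M < g.den := by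
    by_contra! h
    have h1 := (hfar g.den (Finset.mem_Icc.2 ⟨g.den_pos, h⟩) g.num).trans hp
    rw [le_div_iff₀ (by positivity)] at h1
    have := (div_lt_iff₀ he).1 hN.1
    linarith
  obtain ⟨m, n, hmn⟩ : IsCoprime (g.den : ℤ) g.num := by
    rw [Int.isCoprime_iff_gcd_eq_one, Int.gcd_comm]
    exact g.reduced
  set p := (g.den : ℝ) * ξ - g.num with hpd
  set r := (-n : ℤ) * ξ - (m : ℤ) with hr
  have hdet : p * (-n : ℤ) - (g.den : ℝ) * r = 1 := by
    have : (m : ℝ) * g.den + n * g.num = 1 := by exact_mod_cast hmn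
    rw [hpd, hr]
    push_cast
    linear_combination this
  have hpq : |p * (g.den : ℝ)| ≤ |(1 : ℝ)| := by
    rw [abs_one, abs_mul, abs_of_pos hden]
    refine (mul_le_mul_of_nonneg_right hp hden.le).trans ?_
    rw [div_mul_eq_mul_div, one_mul, div_le_one (by positivity)]
    have : (g.den : ℝ) ≤ N := Nat.cast_le.2 hgN
    linarith
  obtain ⟨t, ht1, ht2⟩ := exists_line_point (p := p) (q := g.den) (r := r) (s := ((-n : ℤ) : ℝ))
    (u := α) (v := 0) (k := round ((g.den : ℝ) * -α))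
    (sub_ne_zero.2 fun h => (hξ.natCast_mul g.den_pos.ne').ne_int _ h) hden.ne' hpq (by
      refine le_trans (le_of_eq ?_) ((abs_sub_round ((g.den : ℝ) * -α)).trans_eq (by norm_num))
      rw [← abs_neg]
      congr 1
      linear_combination -(round ((g.den : ℝ) * -α) : ℝ) * hdet)
  set k := round ((g.den : ℝ) * -α)
  have hX : (t : ℝ) * p + k * r - α =
      ((t * g.den + k * -n : ℤ) : ℝ) * ξ - (t * g.num + k * m : ℤ) - α := by
    rw [hpd, hr]
    push_cast
    ring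
  have hY : (t : ℝ) * g.den + k * ((-n : ℤ) : ℝ) - 0 = ((t * g.den + k * -n : ℤ) : ℝ) := by
    push_cast
    ring
  rw [hX, hY, abs_mul, abs_one, mul_comm] at ht1
  rw [hX, abs_one, abs_of_pos hden] at ht2
  have h1 := (hsep _ ⟨_, ht1⟩ (t * g.num + k * m)).trans ht2
  have h2 : 1 / (2 * (g.den : ℝ)) < η / 2 := by
    have : 1 / η < g.den := by
      have : (M : ℝ) ≤ g.den := Nat.cast_le.2 hbig.le
      linarith
    rw [div_lt_iff₀ hη] at this
    rw [div_lt_iff₀ (by positivity)]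
    linarith
  have h3 : |p| < η / 2 := by
    refine hp.trans_lt ?_
    have := (div_lt_iff₀ hη).1 hN.2.1
    rw [div_lt_iff₀ (by positivity)]
    linarith
  linarith

end FA.MarkovMinima

end
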