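import Fermat.Agent.MarkovMinima.Inhomogeneous
import Mathlib.NumberTheory.NumberField.Norm
import Mathlib.RingTheory.Norm.Basic
import Mathlib.LinearAlgebra.FreeModule.Finite.Basic

/-!
# Norm-Euclidean real quadratic fields

The norm form of discriminant `D` takes at some integer point shifted anywhere a value at most
`√D / 4`, which is below one for the discriminants `5`, `8`, `12` and `13`.
-/

set_option autoImplicit false
set_option linter.style.haveILetI false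

noncomputable section

open Real NumberField Module

namespace FA.MarkovMinima

/-- A shifted indefinite form of unit first coefficient and discriminant below `16`. -/
theorem exists_shifted_lt_one {B C : ℝ} (hD : 0 < B ^ 2 - 4 * C) (hD' : B ^ 2 - 4 * C < 16)
    (U V : ℝ) : ∃ x y : ℤ,
      |(U - x) ^ 2 + B * (U - x) * (V - y) + C * (V - y) ^ 2| < 1 := by
  obtain ⟨S, hS⟩ : ∃ S, S = √(B ^ 2 - 4 * C) := ⟨_, rfl⟩
  have hS2 : S ^ 2 = B ^ 2 - 4 * C := by rw [hS, Real.sq_sqrt hD.le]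
  have hS0 : 0 < S := hS ▸ Real.sqrt_pos.2 hD
  obtain ⟨x, y, h⟩ := exists_product_le 1 ((B - S) / 2) 1 ((B + S) / 2)
    (U + (B - S) / 2 * V) (U + (B + S) / 2 * V) (by ring_nf; exact hS0.ne')
  refine ⟨x, y, lt_of_le_of_lt (le_of_eq_of_le (congrArg abs ?_) h) ?_⟩
  · linear_combination ((V - y) ^ 2 / 4) * hS2
  · rw [show (1 : ℝ) * ((B + S) / 2) - (B - S) / 2 * 1 = S by ring, abs_of_pos hS0]
    nlinarith

variable {K : Type*} [Field K] [NumberField K] {d : ℤ} {s : K}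

theorem pair_basis (hK : finrank ℚ K = 2) (hd : ∀ q : ℚ, q ^ 2 ≠ (d : ℚ)) (hs : s ^ 2 = d) :
    ∃ B : Basis (Fin 2) ℚ K, ∀ i, B i = ![1, s] i := by
  have hli : LinearIndependent ℚ ![1, s] :=
    (LinearIndependent.pair_iff' one_ne_zero).mpr fun q e => hd q
      ((algebraMap ℚ K).injective (by
        rw [map_pow, map_intCast, ← hs, ← e, Algebra.smul_def, mul_one]))
  exact ⟨basisOfLinearIndependentOfCardEqFinrank hli (by rw [Fintype.card_fin, hK]),
    fun i => by simp⟩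

theorem norm_pair (hK : finrank ℚ K = 2) (hd : ∀ q : ℚ, q ^ 2 ≠ (d : ℚ)) (hs : s ^ 2 = d)
    (u v : ℚ) : Algebra.norm ℚ ((u : K) + (v : K) * s) = u ^ 2 - d * v ^ 2 := by
  obtain ⟨B, hB⟩ := pair_basis hK hd hs
  have e0 : ((u : K) + (v : K) * s) * B 0 = u • B 0 + v • B 1 := by
    simp [hB, Rat.smul_def]
  have e1 : ((u : K) + (v : K) * s) * B 1 = (v * d) • B 0 + u • B 1 := by
    simp only [hB, Matrix.cons_val_zero, Matrix.cons_val_one, Matrix.cons_val_fin_one,
      Rat.smul_def]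
    push_cast
    linear_combination (v : K) * hs
  rw [Algebra.norm_eq_matrix_det B, Matrix.det_fin_two]
  simp only [Algebra.leftMulMatrix_eq_repr_mul, e0, e1, map_add, map_smul, B.repr_self,
    Finsupp.add_apply, Finsupp.smul_apply, Finsupp.single_eq_same, smul_eq_mul,
    Finsupp.single_eq_of_ne (show (0 : Fin 2) ≠ 1 by decide),
    Finsupp.single_eq_of_ne (show (1 : Fin 2) ≠ 0 by decide)]
  ring

/-- **The norm is Euclidean** for `d = 2, 3, 5, 13`. -/
theorem norm_division_real (hK : finrank ℚ K = 2) (hs : s ^ 2 = (d : K))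
    (hmem : d ∈ ({2, 3, 5, 13} : Finset ℤ)) (a b : 𝓞 K) (hb : b ≠ 0) :
    ∃ q, (Algebra.norm ℤ (a - b * q)).natAbs < (Algebra.norm ℤ b).natAbs := by
  simp only [Finset.mem_insert, Finset.mem_singleton] at hmem
  have hd : ∀ q : ℚ, q ^ 2 ≠ (d : ℚ) := fun q e => by
    have hsq : IsSquare d := Rat.isSquare_intCast_iff.1 ⟨q, by rw [← sq, e]⟩
    obtain ⟨z, hz⟩ := hsq
    have hd13 : d ≤ 13 := by omega
    have hz4 : -4 < z ∧ z < 4 := by
      constructor <;> nlinarith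
    obtain ⟨h3, h4⟩ := hz4
    interval_cases z <;> omega
  have hd0 : (0 : ℝ) < d := by exact_mod_cast (show (0 : ℤ) < d by omega)
  have hb' : (b : K) ≠ 0 := fun h => hb (RingOfIntegers.ext (by simpa using h))
  obtain ⟨B, hB⟩ := pair_basis hK hd hs
  obtain ⟨u, v, huv⟩ : ∃ u v : ℚ, (a : K) / b = (u : K) + (v : K) * s := by
    refine ⟨B.repr ((a : K) / b) 0, B.repr ((a : K) / b) 1, ?_⟩
    conv_lhs => rw [← B.sum_repr ((a : K) / b)]
    simp [Fin.sum_univ_two, hB, Rat.smul_def]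
  suffices h : ∃ (q : 𝓞 K) (U V : ℚ), (q : K) = (U : K) + (V : K) * s ∧
      |((u : ℝ) - U) ^ 2 - d * ((v : ℝ) - V) ^ 2| < 1 by
    obtain ⟨q, U, V, hq, hlt⟩ := h
    refine ⟨q, ?_⟩
    have e : ((a - b * q : 𝓞 K) : K) =
        (b : K) * (((u - U : ℚ) : K) + ((v - V : ℚ) : K) * s) := by
      push_cast
      linear_combination (b : K) * huv - (mul_div_cancel₀ (a : K) hb') - (b : K) * hq
    have h3 : ((Algebra.norm ℤ (a - b * q) : ℤ) : ℚ) =
        (Algebra.norm ℤ b : ℚ) * ((u - U) ^ 2 - d * (v - V) ^ 2) := by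
      rw [Algebra.coe_norm_int, Algebra.coe_norm_int, e, map_mul, norm_pair hK hd hs]
    have hlt' : |(u - U) ^ 2 - (d : ℚ) * (v - V) ^ 2| < 1 := by
      exact_mod_cast hlt
    have hpos : (0 : ℚ) < |(Algebra.norm ℤ b : ℚ)| := abs_pos.2 (Int.cast_ne_zero.2
      (Algebra.norm_ne_zero_iff.2 hb))
    have h4 : |((Algebra.norm ℤ (a - b * q) : ℤ) : ℚ)| < |(Algebra.norm ℤ b : ℚ)| := by
      rw [h3, abs_mul]
      exact (mul_lt_iff_lt_one_right hpos).2 hlt'
    rw [← Int.cast_abs, ← Int.cast_abs, Int.cast_lt, Int.abs_eq_natAbs, Int.abs_eq_natAbs] at h4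
    exact_mod_cast h4
  have hint : IsIntegral ℤ s :=
    ⟨Polynomial.X ^ 2 - Polynomial.C d, by monicity!, by rw [← Polynomial.aeval_def]; simp [hs]⟩
  by_cases h4 : d % 4 = 1
  · obtain ⟨j, hj⟩ : ∃ j, d = 4 * j + 1 := ⟨d / 4, by omega⟩
    have hw : IsIntegral ℤ ((1 + s) / 2) := by
      refine ⟨Polynomial.X ^ 2 - Polynomial.X - Polynomial.C j, by monicity!, ?_⟩
      have : (d : K) = 4 * (j : K) + 1 := by exact_mod_cast hj
      rw [← Polynomial.aeval_def]
      simp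
      linear_combination hs / 4 + this / 4
    obtain ⟨w, hw'⟩ : ∃ w : 𝓞 K, (w : K) = (1 + s) / 2 := ⟨⟨_, hw⟩, rfl⟩
    have hd16 : (d : ℝ) < 16 := by exact_mod_cast (show d < 16 by omega)
    obtain ⟨x, y, hxy⟩ := exists_shifted_lt_one (B := 1) (C := (1 - (d : ℝ)) / 4)
      (by linarith) (by linarith) ((u : ℝ) - v) (2 * v)
    refine ⟨(x : ℤ) + (y : ℤ) * w, (x : ℚ) + (y : ℚ) / 2, (y : ℚ) / 2, ?_, ?_⟩
    · simp [hw']
      ring
    · refine lt_of_eq_of_lt (congrArg abs ?_) hxy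
      push_cast
      ring
  · obtain ⟨S, hS⟩ : ∃ S : 𝓞 K, (S : K) = s := ⟨⟨_, hint⟩, rfl⟩
    have hd4 : (d : ℝ) < 4 := by exact_mod_cast (show d < 4 by omega)
    obtain ⟨x, y, hxy⟩ := exists_shifted_lt_one (B := 0) (C := -(d : ℝ)) (by linarith)
      (by linarith) (u : ℝ) (v : ℝ)
    refine ⟨(x : ℤ) + (y : ℤ) * S, (x : ℚ), (y : ℚ), ?_, ?_⟩
    · simp [hS]
    · refine lt_of_eq_of_lt (congrArg abs ?_) hxy
      push_cast
      ring

end FA.MarkovMinima

end
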